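/-
S55 (Poitou-Tate), block L-COH / SYM: the local symbol `sym a b = κ(b) ∪ κ(a)` and the proof that
`H²(E, μ_p)` is a line spanned by symbols, ABSTRACT form.

Setting: a Kummer setup `K : KummerSetup L p ρ τ ι` with `T = ZMod p`, and a class `Loc` of subgroups
of `G` ("local groups containing μ_p"), stable under passing to relatively open subgroups, on which
`τ` is trivial, with the two arithmetic inputs
  (NI) for every surjective character `x` of `E`: the norm group of `ker x` has index exactly `p` in `A^E`,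
  (NP) `A^E ≠ p A^E`.
Everything else is formal.  `A^E = invOf E ρ` (`PT/Coh/Dict.lean`).
-/
import Fermat.Agent.PT.B.Cyclic
import Fermat.Agent.PT.B.Tower
import Fermat.Agent.PT.Coh.Dict

set_option autoImplicit false
set_option linter.unusedSectionVars false

namespace Fermat.Agent.PT

variable {G : Type*} [Group G] {L : LevelSystem G} {p : ℕ} [Fact p.Prime]
variable {A : Type*} [AddCommGroup A] {ρ : Representation ℤ G A}
variable {τ : Representation (ZMod p) G (ZMod p)} {ι : ZMod p →+ A}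

/-- The hypotheses of the symbol calculus. -/
structure SymHyp (L : LevelSystem G) (p : ℕ) [Fact p.Prime] (ρ : Representation ℤ G A)
    (τ : Representation (ZMod p) G (ZMod p)) (Loc : Subgroup G → Prop) : Prop where
  /-- `μ_p ⊆ k_E` -/
  triv : ∀ {E : Subgroup G}, Loc E → ∀ v ∈ E, ∀ t, τ v t = t
  /-- stability under relatively open subgroups -/
  sub : ∀ {E E' : Subgroup G}, Loc E → E' ≤ E → (∃ U ∈ L, E ⊓ U ≤ E') → Loc E'
  /-- (NI) the norm index of a cyclic extension of degree `p` is `p` -/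
  ni : ∀ {E : Subgroup G}, Loc E → ∀ x ∈ Z1 L E (trivZ p G), ∀ σ ∈ E, x 1 σ = 1 →
    ∃ b₀ ∈ invOf E ρ, (∀ c ∈ invOf (kerOf E x) ρ, normOf ρ p σ c ≠ b₀) ∧
      ∀ b ∈ invOf E ρ, ∃ j : ℕ, ∃ c ∈ invOf (kerOf E x) ρ, b = j • b₀ + normOf ρ p σ c
  /-- (NP) not every element is a `p`-th power -/
  np : ∀ {E : Subgroup G}, Loc E → ∃ b ∈ invOf E ρ, ∀ c ∈ invOf E ρ, p • c ≠ b

/-- The relative norm `A^{E'} → A^E`, `a ↦ ∑_{c ∈ E/E'} c a` (value of `cor0` on the constant
function). -/
noncomputable def relN (ρ : Representation ℤ G A) (E E' : Subgroup G) [Finite (CosetsIn E E')]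
    (a : A) : A := cor0 ρ E E' (fun _ => a) 1

namespace KummerSetup

variable (K : KummerSetup L p ρ τ ι)

/-- The symbol cochain `sym a b = κ(b) ∪ κ(a)`:
`sym a b g₀ g₁ g₂ = kum a g₁ g₂ • kum b g₀ g₁`. -/
noncomputable def sym (a b : A) : G → G → G → ZMod p := K.theta b (K.kum a)

lemma sym_apply (a b : A) (g₀ g₁ g₂ : G) :
    K.sym a b g₀ g₁ g₂ = K.kum a g₁ g₂ • K.kum b g₀ g₁ := rfl

/-- `y` is cohomologous on `E` to a symbol. -/
def IsSymb (E : Subgroup G) (y : G → G → G → ZMod p) : Prop :=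
  ∃ a ∈ invOf E ρ, ∃ b ∈ invOf E ρ, y - K.sym a b ∈ B2 L E τ

/-- `a` is not a `p`-th power in `A^E`. -/
def NotPow (_K : KummerSetup L p ρ τ ι) (E : Subgroup G) (a : A) : Prop :=
  ∀ c ∈ invOf E ρ, p • c ≠ a

end KummerSetup

end Fermat.Agent.PT
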