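/-
S55 block SYM, task Y0: cochain modules only depend on the restriction of the representation to `E`;
characters modulo coboundaries.
-/
import Fermat.Agent.PT.Symb.Defs

set_option autoImplicit false
set_option linter.unusedSectionVars false

namespace Fermat.Agent.PT

section

variable {k G A : Type*} [CommRing k] [Group G] [AddCommGroup A] [Module k A]
  {L : LevelSystem G} {E : Subgroup G} {ρ ρ' : Representation k G A}

theorem X0_congr (h : ∀ v ∈ E, ρ v = ρ' v) : X0 L E ρ = X0 L E ρ' := by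
  ext f
  constructor
  · rintro ⟨he, hs⟩
    exact ⟨fun v hv g₀ => by rw [he v hv, h v hv], hs⟩
  · rintro ⟨he, hs⟩
    exact ⟨fun v hv g₀ => by rw [he v hv, h v hv], hs⟩

theorem X1_congr (h : ∀ v ∈ E, ρ v = ρ' v) : X1 L E ρ = X1 L E ρ' := by
  ext f
  constructor
  · rintro ⟨he, hs⟩
    exact ⟨fun v hv g₀ g₁ => by rw [he v hv, h v hv], hs⟩
  · rintro ⟨he, hs⟩
    exact ⟨fun v hv g₀ g₁ => by rw [he v hv, h v hv], hs⟩

theorem X2_congr (h : ∀ v ∈ E, ρ v = ρ' v) : X2 L E ρ = X2 L E ρ' := by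
  ext f
  constructor
  · rintro ⟨he, hs⟩
    exact ⟨fun v hv g₀ g₁ g₂ => by rw [he v hv, h v hv], hs⟩
  · rintro ⟨he, hs⟩
    exact ⟨fun v hv g₀ g₁ g₂ => by rw [he v hv, h v hv], hs⟩

theorem Z1_congr (h : ∀ v ∈ E, ρ v = ρ' v) : Z1 L E ρ = Z1 L E ρ' := by
  unfold Z1
  rw [X1_congr h]

theorem Z2_congr (h : ∀ v ∈ E, ρ v = ρ' v) : Z2 L E ρ = Z2 L E ρ' := by
  unfold Z2
  rw [X2_congr h]

theorem B1_congr (h : ∀ v ∈ E, ρ v = ρ' v) : B1 L E ρ = B1 L E ρ' := by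
  unfold B1
  rw [X0_congr h]

theorem B2_congr (h : ∀ v ∈ E, ρ v = ρ' v) : B2 L E ρ = B2 L E ρ' := by
  unfold B2
  rw [X1_congr h]

/-- `cor1` only depends on the restriction of the representation to `E`. -/
theorem cor1_congr {E' : Subgroup G} [Finite (CosetsIn E E')] (h : ∀ v ∈ E, ρ v = ρ' v)
    (f : G → G → A) : cor1 ρ E E' f = cor1 ρ' E E' f := by
  letI := Fintype.ofFinite (CosetsIn E E')
  unfold cor1
  rw [LinearMap.sum_apply, LinearMap.sum_apply]
  refine Finset.sum_congr rfl fun q _ => ?_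
  funext g₀ g₁
  rw [tw1_apply, tw1_apply, h _ q.rep_mem]

end

variable {G : Type*} [Group G] {L : LevelSystem G} {p : ℕ} [Fact p.Prime]
variable {τ : Representation (ZMod p) G (ZMod p)} {E : Subgroup G}

theorem Congr_eq_triv (h : ∀ v ∈ E, ∀ t, τ v t = t) : ∀ v ∈ E, τ v = trivZ p G v := by
  intro v hv
  ext
  simp [h v hv]

theorem Z1_eq_triv (h : ∀ v ∈ E, ∀ t, τ v t = t) : Z1 L E τ = Z1 L E (trivZ p G) :=
  Z1_congr (Congr_eq_triv h)

theorem B1_eq_triv (h : ∀ v ∈ E, ∀ t, τ v t = t) : B1 L E τ = B1 L E (trivZ p G) :=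
  B1_congr (Congr_eq_triv h)

/-- Cohomologous characters agree on `E`. -/
theorem one_eq_of_sub_mem_B1 {x x' : G → G → ZMod p} (h : x - x' ∈ B1 L E (trivZ p G)) {v : G}
    (hv : v ∈ E) : x 1 v = x' 1 v := by
  obtain ⟨e, he, hd⟩ := h
  have h1 := congrFun (congrFun hd 1) v
  have h2 : e (v * 1) = e 1 := he.1 v hv 1
  rw [mul_one] at h2
  simp only [d0_apply, Pi.sub_apply, h2, sub_self] at h1
  exact (sub_eq_zero.mp h1.symm)

/-- A character is a coboundary iff it is trivial. -/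
theorem mem_B1_triv_iff {x : G → G → ZMod p} (hx : x ∈ Z1 L E (trivZ p G)) :
    x ∈ B1 L E (trivZ p G) ↔ kerOf E x = E := by
  constructor
  · intro h
    refine le_antisymm (kerOf_le E x) fun v hv => ?_
    rw [mem_kerOf_iff hx]
    refine ⟨hv, ?_⟩
    have h0 : x - 0 ∈ B1 L E (trivZ p G) := by rwa [sub_zero]
    exact one_eq_of_sub_mem_B1 h0 hv
  · intro h
    refine ⟨fun g => x 1 g, ⟨fun v hv g => ?_, smooth_x_one hx⟩, ?_⟩
    · have hv' : v ∈ kerOf E x := by rw [h]; exact hv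
      exact hv'.2 g
    · funext g₀ g₁
      rw [d0_apply, x_eq_sub hx g₀ g₁]

theorem kerOf_eq_of_sub_mem_B1 {x x' : G → G → ZMod p} (hx : x ∈ Z1 L E (trivZ p G))
    (hx' : x' ∈ Z1 L E (trivZ p G)) (h : x - x' ∈ B1 L E (trivZ p G)) :
    kerOf E x = kerOf E x' := by
  ext v
  rw [mem_kerOf_iff hx, mem_kerOf_iff hx']
  constructor
  · rintro ⟨hv, h0⟩
    exact ⟨hv, by rw [← one_eq_of_sub_mem_B1 h hv, h0]⟩
  · rintro ⟨hv, h0⟩
    exact ⟨hv, by rw [one_eq_of_sub_mem_B1 h hv, h0]⟩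

/-- The kernel of a character is relatively open. -/
theorem exists_level_le_kerOf {x : G → G → ZMod p} (hx : x ∈ Z1 L E (trivZ p G)) :
    ∃ U ∈ L, E ⊓ U ≤ kerOf E x := by
  obtain ⟨U, hU, hs⟩ := smooth_x_one hx
  refine ⟨U, hU, fun u hu => ?_⟩
  rw [mem_kerOf_iff hx]
  refine ⟨hu.1, ?_⟩
  have := hs 1 u hu.2
  simp only [one_mul] at this
  rw [this, x_one_one hx]

/-- A relatively open subgroup has finite index. -/
theorem finite_cosetsIn_of_open {E' : Subgroup G} (h : ∃ U ∈ L, E ⊓ U ≤ E') :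
    Finite (CosetsIn E E') := by
  obtain ⟨U, hU, hle⟩ := h
  apply Coprime_finite_cosetsIn
  have hfi : U.FiniteIndex := L.finiteIndex' U hU
  have h1 : U.relIndex E ≠ 0 := fun h0 =>
    hfi.index_ne_zero (Subgroup.index_eq_zero_of_relIndex_eq_zero h0)
  have h2 : (E ⊓ U).relIndex E ≠ 0 := by
    rwa [Subgroup.inf_relIndex_left]
  exact fun h0 => h2 (Nat.eq_zero_of_zero_dvd (h0 ▸ Subgroup.relIndex_dvd_of_le_left E hle))

theorem finite_cosetsIn_kerOf {x : G → G → ZMod p} (hx : x ∈ Z1 L E (trivZ p G)) :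
    Finite (CosetsIn E (kerOf E x)) :=
  finite_cosetsIn_of_open (exists_level_le_kerOf hx)

/-- `σ^i`, `i < p`, represent `E / ker x`. -/
theorem isReps_pow {x : G → G → ZMod p} (hx : x ∈ Z1 L E (trivZ p G)) {σ : G} (hσ : σ ∈ E)
    (hσ1 : x 1 σ = 1) : IsReps E (kerOf E x) (fun i : Fin p => σ ^ (i : ℕ)) := by
  have key : ∀ (n : ℕ) (v : G), v ∈ E →
      ((σ ^ n)⁻¹ * v ∈ kerOf E x ↔ x 1 v = (n : ZMod p)) := by
    intro n v hv
    rw [mem_kerOf_iff hx]
    have h3 := x_one_pow hx hσ n ((σ ^ n)⁻¹ * v)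
    rw [mul_inv_cancel_left, hσ1, mul_one] at h3
    constructor
    · rintro ⟨_, h0⟩
      rw [h3, h0, add_zero]
    · intro h0
      refine ⟨E.mul_mem (E.inv_mem (E.pow_mem hσ _)) hv, ?_⟩
      rw [h0] at h3
      linear_combination -h3
  refine ⟨fun i => E.pow_mem hσ _, fun v hv => ?_⟩
  refine ⟨⟨(x 1 v).val, ZMod.val_lt _⟩, ?_, ?_⟩
  · show (σ ^ (x 1 v).val)⁻¹ * v ∈ kerOf E x
    rw [key _ v hv, ZMod.natCast_zmod_val]
  · intro i hi
    have hi' : (σ ^ (i : ℕ))⁻¹ * v ∈ kerOf E x := hi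
    rw [key _ v hv] at hi'
    apply Fin.ext
    show (i : ℕ) = (x 1 v).val
    rw [hi', ZMod.val_natCast, Nat.mod_eq_of_lt i.2]

variable {A : Type*} [AddCommGroup A] {ρ : Representation ℤ G A}

/-- `cor0` of a constant function is the constant function `relN`. -/
theorem cor0_const {E' : Subgroup G} [Finite (CosetsIn E E')] (a : A) :
    cor0 ρ E E' (fun _ => a) = fun _ => relN ρ E E' a := by
  letI := Fintype.ofFinite (CosetsIn E E')
  funext g
  unfold relN cor0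
  rw [LinearMap.sum_apply, Finset.sum_apply, Finset.sum_apply]
  rfl

theorem relN_mem {E' : Subgroup G} [Finite (CosetsIn E E')] (L : LevelSystem G) {a : A}
    (ha : a ∈ invOf E' ρ) : relN ρ E E' a ∈ invOf E ρ := by
  have h1 : (fun _ : G => a) ∈ X0 L E' ρ := (const_mem_Z0 L E' ρ ha).1
  have h2 : cor0 ρ E E' (fun _ => a) ∈ X0 L E ρ := cor0_mem h1
  rw [cor0_const] at h2
  intro v hv
  exact (h2.1 v hv 1).symm

/-- For the kernel of a character the relative norm is `normOf`. -/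
theorem relN_kerOf {x : G → G → ZMod p} (hx : x ∈ Z1 L E (trivZ p G)) {σ : G} (hσ : σ ∈ E)
    (hσ1 : x 1 σ = 1) [Finite (CosetsIn E (kerOf E x))] {c : A} (hc : c ∈ invOf (kerOf E x) ρ) :
    relN ρ E (kerOf E x) c = normOf ρ p σ c := by
  have h1 : (fun _ : G => c) ∈ X0 L (kerOf E x) ρ := (const_mem_Z0 L (kerOf E x) ρ hc).1
  unfold relN normOf
  rw [cor0_eq_sum (isReps_pow hx hσ hσ1) h1, Finset.sum_apply,
    ← Fin.sum_univ_eq_sum_range (fun i => ρ (σ ^ i) c) p]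
  rfl

end Fermat.Agent.PT
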