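/-
S55 block SYM, task Y1: (S1) the symbol is a cocycle, biadditive modulo coboundaries;
(S2) `sym a b = 0` iff `b` is a norm from `ker κ(a)`.
-/
import Fermat.Agent.PT.Symb.Congr

set_option autoImplicit false
set_option linter.unusedSectionVars false

namespace Fermat.Agent.PT

theorem symbBasic_cupT_sub_right {G : Type*} [Group G] {p : ℕ} [Fact p.Prime] {T : Type*} [AddCommGroup T]
    [Module (ZMod p) T] (f : G → G → T) (x x' : G → G → ZMod p) :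
    cupT f (x - x') = cupT f x - cupT f x' := by
  funext g₀ g₁ g₂
  simp [cupT, sub_smul]

end Fermat.Agent.PT

namespace Fermat.Agent.PT.KummerSetup

variable {G : Type*} [Group G] {L : LevelSystem G} {p : ℕ} [Fact p.Prime]
variable {A : Type*} [AddCommGroup A] {ρ : Representation ℤ G A}
variable {τ : Representation (ZMod p) G (ZMod p)} {ι : ZMod p →+ A}
variable (K : KummerSetup L p ρ τ ι) {E : Subgroup G}

/-- `κ(a)` is a character of `E` when `τ` is trivial on `E`. -/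
theorem kum_mem_Z1_triv (hE : ∀ v ∈ E, ∀ t, τ v t = t) {a : A} (ha : a ∈ invOf E ρ) :
    K.kum a ∈ Z1 L E (trivZ p G) := by
  rw [← Z1_eq_triv hE]
  exact K.kum_mem_Z1 ha

theorem sym_mem_Z2 (hE : ∀ v ∈ E, ∀ t, τ v t = t) {a b : A} (ha : a ∈ invOf E ρ)
    (hb : b ∈ invOf E ρ) : K.sym a b ∈ Z2 L E τ :=
  K.theta_mem_Z2 hb (K.kum_mem_Z1_triv hE ha)

theorem sym_add_right (hE : ∀ v ∈ E, ∀ t, τ v t = t) {a b b' : A} (ha : a ∈ invOf E ρ)
    (hb : b ∈ invOf E ρ) (hb' : b' ∈ invOf E ρ) :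
    K.sym a (b + b') - (K.sym a b + K.sym a b') ∈ B2 L E τ :=
  K.theta_add hb hb' (K.kum_mem_Z1_triv hE ha)

theorem sym_add_left (hE : ∀ v ∈ E, ∀ t, τ v t = t) {a a' b : A} (ha : a ∈ invOf E ρ)
    (ha' : a' ∈ invOf E ρ) (hb : b ∈ invOf E ρ) :
    K.sym (a + a') b - (K.sym a b + K.sym a' b) ∈ B2 L E τ := by
  have h1 : K.kum (a + a') - (K.kum a + K.kum a') ∈ B1 L E (trivZ p G) := by
    rw [← B1_eq_triv hE]
    exact K.kum_add ha ha'
  have h2 := cupT_mem_B2_right (K.kum_mem_Z1 hb) h1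
  rwa [symbBasic_cupT_sub_right, cupT_add_right] at h2

/-- `theta b x` only depends on the class of the character `x`. -/
theorem theta_sub_mem_B2 {b : A} (hb : b ∈ invOf E ρ) {x x' : G → G → ZMod p}
    (h : x - x' ∈ B1 L E (trivZ p G)) : K.theta b x - K.theta b x' ∈ B2 L E τ := by
  have h2 := cupT_mem_B2_right (K.kum_mem_Z1 hb) h
  rwa [symbBasic_cupT_sub_right] at h2

/-- `sym (p c) b = 0`. -/
theorem sym_mem_B2_of_pow_left (hE : ∀ v ∈ E, ∀ t, τ v t = t) {a b : A} (ha : a ∈ invOf E ρ)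
    (hb : b ∈ invOf E ρ) (h : ¬ K.NotPow E a) : K.sym a b ∈ B2 L E τ := by
  unfold NotPow at h
  push Not at h
  obtain ⟨c, hc, hca⟩ := h
  have h1 : K.kum a ∈ B1 L E (trivZ p G) := by
    rw [← B1_eq_triv hE]
    exact (K.kum_mem_B1_iff ha).2 ⟨c, hc, hca⟩
  exact cupT_mem_B2_right (K.kum_mem_Z1 hb) h1

/-- `sym a (p c) = 0`. -/
theorem sym_mem_B2_of_pow_right (hE : ∀ v ∈ E, ∀ t, τ v t = t) {a b : A} (ha : a ∈ invOf E ρ)
    (hb : b ∈ invOf E ρ) (h : ¬ K.NotPow E b) : K.sym a b ∈ B2 L E τ := by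
  unfold NotPow at h
  push Not at h
  obtain ⟨c, hc, hcb⟩ := h
  have h1 : K.kum b ∈ B1 L E τ := (K.kum_mem_B1_iff hb).2 ⟨c, hc, hcb⟩
  exact cupT_mem_B2_left h1 (K.kum_mem_Z1_triv hE ha)

theorem symbBasic_not_notPow_zero : ¬ K.NotPow E (0 : A) := fun h =>
  h 0 (invOf E ρ).zero_mem (smul_zero _)

theorem sym_nsmul_right (hE : ∀ v ∈ E, ∀ t, τ v t = t) {a b : A} (ha : a ∈ invOf E ρ)
    (hb : b ∈ invOf E ρ) (j : ℕ) : K.sym a (j • b) - j • K.sym a b ∈ B2 L E τ := by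
  induction j with
  | zero =>
    rw [zero_smul, zero_smul, sub_zero]
    exact K.sym_mem_B2_of_pow_right hE ha (invOf E ρ).zero_mem K.symbBasic_not_notPow_zero
  | succ j ih =>
    have hjb : j • b ∈ invOf E ρ := nsmul_mem hb j
    have h1 := K.sym_add_right hE ha hjb hb
    have h2 : K.sym a ((j + 1) • b) - (j + 1) • K.sym a b
        = (K.sym a (j • b + b) - (K.sym a (j • b) + K.sym a b))
          + (K.sym a (j • b) - j • K.sym a b) := by
      rw [succ_nsmul, succ_nsmul]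
      abel
    rw [h2]
    exact add_mem h1 ih

theorem kerOf_kum_ne (hE : ∀ v ∈ E, ∀ t, τ v t = t) {a : A} (ha : a ∈ invOf E ρ)
    (h : K.NotPow E a) : kerOf E (K.kum a) ≠ E := by
  intro hker
  have h1 : K.kum a ∈ B1 L E (trivZ p G) :=
    (mem_B1_triv_iff (K.kum_mem_Z1_triv hE ha)).2 hker
  rw [← B1_eq_triv hE] at h1
  obtain ⟨c, hc, hca⟩ := (K.kum_mem_B1_iff ha).1 h1
  exact h c hc hca

/-- If `a` is not a `p`-th power, `κ(a)` is a surjective character. -/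
theorem exists_sigma_kum (hE : ∀ v ∈ E, ∀ t, τ v t = t) {a : A} (ha : a ∈ invOf E ρ)
    (h : K.NotPow E a) : ∃ σ ∈ E, K.kum a 1 σ = 1 :=
  exists_sigma (K.kum_mem_Z1_triv hE ha) (K.kerOf_kum_ne hE ha h)

/-- (S2) -/
theorem sym_mem_B2_iff (hE : ∀ v ∈ E, ∀ t, τ v t = t) {a b : A} (ha : a ∈ invOf E ρ)
    (hb : b ∈ invOf E ρ) {σ : G} (hσ : σ ∈ E) (hσ1 : K.kum a 1 σ = 1) :
    K.sym a b ∈ B2 L E τ ↔ ∃ c ∈ invOf (kerOf E (K.kum a)) ρ, normOf ρ p σ c = b := by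
  constructor
  · intro h
    exact K.exists_norm_of_theta_mem_B2 (K.kum_mem_Z1_triv hE ha) hσ hσ1 hb h
  · rintro ⟨c, hc, rfl⟩
    exact K.theta_norm_mem_B2 (K.kum_mem_Z1_triv hE ha) hσ hσ1 hc

/-- Every character of `E` is a `κ(a)`. -/
theorem exists_kum_triv (hE : ∀ v ∈ E, ∀ t, τ v t = t) {x : G → G → ZMod p}
    (hx : x ∈ Z1 L E (trivZ p G)) :
    ∃ a ∈ invOf E ρ, x - K.kum a ∈ B1 L E (trivZ p G) ∧ kerOf E (K.kum a) = kerOf E x ∧
      (kerOf E x ≠ E → K.NotPow E a) := by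
  have hx' : x ∈ Z1 L E τ := by
    rw [Z1_eq_triv hE]
    exact hx
  obtain ⟨a, ha, hxa⟩ := K.exists_kum hx'
  rw [B1_eq_triv hE] at hxa
  have hker : kerOf E (K.kum a) = kerOf E x :=
    (kerOf_eq_of_sub_mem_B1 hx (K.kum_mem_Z1_triv hE ha) hxa).symm
  refine ⟨a, ha, hxa, hker, fun hne c hc hca => ?_⟩
  apply hne
  rw [← hker]
  apply (mem_B1_triv_iff (K.kum_mem_Z1_triv hE ha)).1
  rw [← B1_eq_triv hE]
  exact (K.kum_mem_B1_iff ha).2 ⟨c, hc, hca⟩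

/-- restriction of a symbol class -/
theorem IsSymb.mono {E' : Subgroup G} (h : E' ≤ E) {y : G → G → G → ZMod p} (hy : K.IsSymb E y) :
    K.IsSymb E' y := by
  obtain ⟨a, ha, b, hb, hab⟩ := hy
  exact ⟨a, fun v hv => ha v (h hv), b, fun v hv => hb v (h hv), B2_le_of_le h hab⟩

theorem IsSymb.nsmul (hE : ∀ v ∈ E, ∀ t, τ v t = t) {y : G → G → G → ZMod p}
    (hy : K.IsSymb E y) (j : ℕ) : K.IsSymb E (j • y) := by
  obtain ⟨a, ha, b, hb, hab⟩ := hy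
  refine ⟨a, ha, j • b, nsmul_mem hb j, ?_⟩
  have h1 := K.sym_nsmul_right hE ha hb j
  have h2 : j • y - K.sym a (j • b)
      = j • (y - K.sym a b) - (K.sym a (j • b) - j • K.sym a b) := by
    rw [smul_sub]
    abel
  rw [h2]
  exact sub_mem (nsmul_mem hab j) h1

theorem IsSymb.congr {y y' : G → G → G → ZMod p} (hy : K.IsSymb E y) (h : y' - y ∈ B2 L E τ) :
    K.IsSymb E y' := by
  obtain ⟨a, ha, b, hb, hab⟩ := hy
  refine ⟨a, ha, b, hb, ?_⟩
  have h2 : y' - K.sym a b = (y' - y) + (y - K.sym a b) := by abel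
  rw [h2]
  exact add_mem h hab

theorem isSymb_of_mem_B2 {y : G → G → G → ZMod p} (h : y ∈ B2 L E τ)
    (hE : ∀ v ∈ E, ∀ t, τ v t = t) : K.IsSymb E y :=
  ⟨0, (invOf E ρ).zero_mem, 0, (invOf E ρ).zero_mem, sub_mem h
    (K.sym_mem_B2_of_pow_right hE (invOf E ρ).zero_mem (invOf E ρ).zero_mem
      K.symbBasic_not_notPow_zero)⟩

end Fermat.Agent.PT.KummerSetup
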