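/-
S55 block SYM, task Y2: (S3) `sym a a = 0` for `p` odd, antisymmetry.
-/
import Fermat.Agent.PT.Symb.Basic

set_option autoImplicit false
set_option linter.unusedSectionVars false

namespace Fermat.Agent.PT.KummerSetup

variable {G : Type*} [Group G] {L : LevelSystem G} {p : ℕ} [Fact p.Prime]
variable {A : Type*} [AddCommGroup A] {ρ : Representation ℤ G A}
variable {τ : Representation (ZMod p) G (ZMod p)} {ι : ZMod p →+ A}
variable (K : KummerSetup L p ρ τ ι) {E : Subgroup G}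

/-- `α = K.s a` (a `p`-th root of `a`) is fixed by `ker κ(a)` (`ι_kum_one`). -/
theorem s_mem_invOf_ker {a : A} (ha : a ∈ invOf E ρ) (hE : ∀ v ∈ E, ∀ t, τ v t = t) :
    K.s a ∈ invOf (kerOf E (K.kum a)) ρ := by
  intro v hv
  have hx := K.kum_mem_Z1_triv hE ha
  obtain ⟨hvE, hv0⟩ := (mem_kerOf_iff hx).1 hv
  have h := K.ι_kum_one (ha v hvE)
  rw [hv0, map_zero] at h
  exact (sub_eq_zero.1 h.symm)

/-- `σ^i α = α + i • ι 1`. -/
theorem symSelf_pow_s (hE : ∀ v ∈ E, ∀ t, τ v t = t) {a : A} (ha : a ∈ invOf E ρ) {σ : G}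
    (hσ : σ ∈ E) (hσ1 : K.kum a 1 σ = 1) (i : ℕ) :
    ρ (σ ^ i) (K.s a) = K.s a + i • ι 1 := by
  have h1 : ρ σ (K.s a) = K.s a + ι 1 := by
    have h := K.ι_kum_one (ha σ hσ)
    rw [hσ1] at h
    rw [h]; abel
  have h2 : ρ σ (ι 1) = ι 1 := by rw [← K.equiv, hE σ hσ]
  induction i with
  | zero => simp
  | succ i ih =>
    rw [pow_succ', map_mul, Module.End.mul_apply, ih, map_add, map_nsmul, h1, h2, succ_nsmul]
    abel

/-- `N α = a` for `p` odd: `σ^i α = α + i • ι 1` (`ι_kum_one`, `σ (ι 1) = ι (τ σ 1) = ι 1`), so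
`N α = p • α + (p (p-1)/2) • ι 1 = a`. -/
theorem normOf_s (hp2 : p ≠ 2) (hE : ∀ v ∈ E, ∀ t, τ v t = t) {a : A} (ha : a ∈ invOf E ρ) {σ : G}
    (hσ : σ ∈ E) (hσ1 : K.kum a 1 σ = 1) : normOf ρ p σ (K.s a) = a := by
  have hp : p.Prime := Fact.out
  rw [normOf, Finset.sum_congr rfl (fun i _ => K.symSelf_pow_s hE ha hσ hσ1 i),
    Finset.sum_add_distrib, Finset.sum_const, Finset.card_range, K.p_smul_s, ← Finset.sum_smul]
  have hodd : Odd p := hp.odd_of_ne_two hp2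
  obtain ⟨m, hm⟩ := hodd
  have h3 : (∑ i ∈ Finset.range p, i) = m * p := by
    have h4 := Finset.sum_range_id_mul_two p
    have h5 : p - 1 = 2 * m := by omega
    rw [h5] at h4
    have : (∑ i ∈ Finset.range p, i) * 2 = (m * p) * 2 := by rw [h4]; ring
    exact Nat.eq_of_mul_eq_mul_right (by norm_num) this
  rw [h3, mul_smul, K.p_smul_ι, smul_zero, add_zero]

/-- (S3) -/
theorem sym_self (hp2 : p ≠ 2) (hE : ∀ v ∈ E, ∀ t, τ v t = t) {a : A} (ha : a ∈ invOf E ρ) :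
    K.sym a a ∈ B2 L E τ := by
  by_cases h : K.NotPow E a
  · obtain ⟨σ, hσ, hσ1⟩ := K.exists_sigma_kum hE ha h
    exact (K.sym_mem_B2_iff hE ha ha hσ hσ1).2
      ⟨K.s a, K.s_mem_invOf_ker ha hE, K.normOf_s hp2 hE ha hσ hσ1⟩
  · exact K.sym_mem_B2_of_pow_left hE ha ha h

/-- antisymmetry: expand `sym (a+b) (a+b)`. -/
theorem sym_antisymm (hp2 : p ≠ 2) (hE : ∀ v ∈ E, ∀ t, τ v t = t) {a b : A} (ha : a ∈ invOf E ρ)
    (hb : b ∈ invOf E ρ) : K.sym a b + K.sym b a ∈ B2 L E τ := by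
  have hab : a + b ∈ invOf E ρ := add_mem ha hb
  have h0 := K.sym_self hp2 hE hab
  have h1 := K.sym_add_left hE ha hb hab
  have h2 := K.sym_add_right hE ha ha hb
  have h3 := K.sym_add_right hE hb ha hb
  have h4 := K.sym_self hp2 hE ha
  have h5 := K.sym_self hp2 hE hb
  have : K.sym a b + K.sym b a =
      K.sym (a + b) (a + b) - (K.sym (a + b) (a + b) - (K.sym a (a + b) + K.sym b (a + b)))
        - (K.sym a (a + b) - (K.sym a a + K.sym a b))
        - (K.sym b (a + b) - (K.sym b a + K.sym b b)) - K.sym a a - K.sym b b := by abel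
  rw [this]
  exact sub_mem (sub_mem (sub_mem (sub_mem (sub_mem h0 h1) h2) h3) h4) h5

end Fermat.Agent.PT.KummerSetup
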