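/-
S55 block SYM, task Y3: (S4) all symbols of `E` lie on one line.
-/
import Fermat.Agent.PT.Symb.Self

set_option autoImplicit false
set_option linter.unusedSectionVars false

namespace Fermat.Agent.PT.KummerSetup

section Aux

/-- Two multiples of `w`, the second one nonzero: the first is a multiple of the second. -/
theorem Line_aux_line (p : ℕ) [Fact p.Prime] {Q : Type*} [AddCommGroup Q] [Module (ZMod p) Q]
    {u v w : Q} {j j₁ : ℕ} (hu : u = j • w) (hv : v = j₁ • w) (hv0 : v ≠ 0) :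
    ∃ j' : ℕ, u = j' • v := by
  have h1 : (j₁ : ZMod p) ≠ 0 := by
    intro h0
    apply hv0
    rw [hv, ← Nat.cast_smul_eq_nsmul (ZMod p), h0, zero_smul]
  refine ⟨((j : ZMod p) * (j₁ : ZMod p)⁻¹).val, ?_⟩
  rw [← Nat.cast_smul_eq_nsmul (ZMod p), ZMod.natCast_zmod_val, hv, hu,
    ← Nat.cast_smul_eq_nsmul (ZMod p) j₁, ← Nat.cast_smul_eq_nsmul (ZMod p) j, smul_smul, mul_assoc,
    inv_mul_cancel₀ h1, mul_one]

end Aux

variable {G : Type*} [Group G] {L : LevelSystem G} {p : ℕ} [Fact p.Prime]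
variable {A : Type*} [AddCommGroup A] {ρ : Representation ℤ G A}
variable {τ : Representation (ZMod p) G (ZMod p)} {ι : ZMod p →+ A}
variable (K : KummerSetup L p ρ τ ι) {Loc : Subgroup G → Prop} (H : SymHyp L p ρ τ Loc)
variable {E : Subgroup G}

/-- The class modulo `B2`. -/
local notation "cl" => (Submodule.Quotient.mk (p := B2 L E τ))

theorem Line_cl_eq {f g : G → G → G → ZMod p} :
    f - g ∈ B2 L E τ ↔ (Submodule.Quotient.mk f : _ ⧸ B2 L E τ) = Submodule.Quotient.mk g :=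
  (Submodule.Quotient.eq _).symm

theorem Line_cl_zero {f : G → G → G → ZMod p} :
    f ∈ B2 L E τ ↔ (Submodule.Quotient.mk f : _ ⧸ B2 L E τ) = 0 :=
  (Submodule.Quotient.mk_eq_zero _).symm

theorem Line_cl_nsmul (j : ℕ) (f : G → G → G → ZMod p) :
    (Submodule.Quotient.mk (j • f) : _ ⧸ B2 L E τ) = j • Submodule.Quotient.mk f := by
  rw [← Nat.cast_smul_eq_nsmul (ZMod p), Submodule.Quotient.mk_smul, Nat.cast_smul_eq_nsmul]

include K H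

/-- For `a` not a `p`-th power there is `b` with `sym a b ≠ 0` (NI + S2). -/
theorem exists_sym_not_mem_B2_right (hE : Loc E) {a : A} (ha : a ∈ invOf E ρ)
    (h : K.NotPow E a) : ∃ b ∈ invOf E ρ, K.sym a b ∉ B2 L E τ := by
  have hEt := H.triv hE
  obtain ⟨σ, hσ, hσ1⟩ := K.exists_sigma_kum hEt ha h
  obtain ⟨b₀, hb₀, hn, -⟩ := H.ni hE (K.kum a) (K.kum_mem_Z1_triv hEt ha) σ hσ hσ1
  refine ⟨b₀, hb₀, fun hmem => ?_⟩
  obtain ⟨c, hc, hcb⟩ := (K.sym_mem_B2_iff hEt ha hb₀ hσ hσ1).mp hmem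
  exact hn c hc hcb

/-- There is a nonzero symbol (NP). -/
theorem exists_sym_not_mem_B2 (hE : Loc E) :
    ∃ a ∈ invOf E ρ, ∃ b ∈ invOf E ρ, K.sym a b ∉ B2 L E τ := by
  obtain ⟨a, ha, hna⟩ := H.np hE
  exact ⟨a, ha, K.exists_sym_not_mem_B2_right H hE ha hna⟩

/-- Lemma A: `{sym a b}_b` is a line.  By (NI) `b = j b₀ + N c`, `b₁ = j₁ b₀ + N c₁`, `p ∤ j₁`. -/
theorem sym_line_right (hE : Loc E) {a b₁ : A} (ha : a ∈ invOf E ρ) (hb₁ : b₁ ∈ invOf E ρ)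
    (h₁ : K.sym a b₁ ∉ B2 L E τ) {b : A} (hb : b ∈ invOf E ρ) :
    ∃ j : ℕ, K.sym a b - j • K.sym a b₁ ∈ B2 L E τ := by
  have hEt := H.triv hE
  have hna : K.NotPow E a := by
    by_contra hcon
    exact h₁ (K.sym_mem_B2_of_pow_left hEt ha hb₁ hcon)
  obtain ⟨σ, hσ, hσ1⟩ := K.exists_sigma_kum hEt ha hna
  obtain ⟨b₀, hb₀, -, hgen⟩ := H.ni hE (K.kum a) (K.kum_mem_Z1_triv hEt ha) σ hσ hσ1
  -- every `sym a b'` is a multiple of `sym a b₀`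
  have key : ∀ b' ∈ invOf E ρ, ∃ j : ℕ,
      (Submodule.Quotient.mk (K.sym a b') : _ ⧸ B2 L E τ)
        = j • Submodule.Quotient.mk (K.sym a b₀) := by
    intro b' hb'
    obtain ⟨j, c, hc, hbc⟩ := hgen b' hb'
    refine ⟨j, ?_⟩
    have hjb : j • b₀ ∈ invOf E ρ := (invOf E ρ).nsmul_mem hb₀ j
    have hN : normOf ρ p σ c ∈ invOf E ρ := by
      have : normOf ρ p σ c = b' - j • b₀ := by rw [hbc]; abel
      rw [this]
      exact (invOf E ρ).sub_mem hb' hjb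
    have e1 := Line_cl_eq.mp (K.sym_add_right hEt ha hjb hN)
    have e2 := Line_cl_eq.mp (K.sym_nsmul_right hEt ha hb₀ j)
    have e3 := Line_cl_zero.mp ((K.sym_mem_B2_iff hEt ha hN hσ hσ1).mpr ⟨c, hc, rfl⟩)
    rw [hbc, e1, Submodule.Quotient.mk_add, e2, e3, add_zero, Line_cl_nsmul]
  obtain ⟨j, hj⟩ := key b hb
  obtain ⟨j₁, hj₁⟩ := key b₁ hb₁
  obtain ⟨j', hj'⟩ := Line_aux_line p hj hj₁ (fun h0 => h₁ (Line_cl_zero.mpr h0))
  exact ⟨j', by rw [Line_cl_eq, Line_cl_nsmul]; exact hj'⟩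

/-- Lemma B: a group is not the union of two proper subgroups. -/
theorem exists_common (hE : Loc E) {a a' : A} (ha : a ∈ invOf E ρ) (ha' : a' ∈ invOf E ρ)
    (h : K.NotPow E a) (h' : K.NotPow E a') :
    ∃ b ∈ invOf E ρ, K.sym a b ∉ B2 L E τ ∧ K.sym a' b ∉ B2 L E τ := by
  have hEt := H.triv hE
  obtain ⟨b₁, hb₁, hn₁⟩ := K.exists_sym_not_mem_B2_right H hE ha h
  obtain ⟨b₂, hb₂, hn₂⟩ := K.exists_sym_not_mem_B2_right H hE ha' h'
  by_cases c1 : K.sym a' b₁ ∈ B2 L E τ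
  · by_cases c2 : K.sym a b₂ ∈ B2 L E τ
    · refine ⟨b₁ + b₂, (invOf E ρ).add_mem hb₁ hb₂, fun hm => hn₁ ?_, fun hm => hn₂ ?_⟩
      · have e1 := Line_cl_eq.mp (K.sym_add_right hEt ha hb₁ hb₂)
        rw [Line_cl_zero.mp hm, Submodule.Quotient.mk_add, Line_cl_zero.mp c2, add_zero] at e1
        exact Line_cl_zero.mpr e1.symm
      · have e1 := Line_cl_eq.mp (K.sym_add_right hEt ha' hb₁ hb₂)
        rw [Line_cl_zero.mp hm, Submodule.Quotient.mk_add, Line_cl_zero.mp c1, zero_add] at e1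
        exact Line_cl_zero.mpr e1.symm
    · exact ⟨b₂, hb₂, c2, hn₂⟩
  · exact ⟨b₁, hb₁, hn₁, c1⟩

/-- Lemma C.  `sym a b ≡ j₁ sym a b' ≡ - j₁ sym b' a ≡ - j₁ j₂ sym b' a₀ ≡ j₁ j₂ sym a₀ b'
≡ j₁ j₂ j₃ sym a₀ b₀` with `b'` from Lemma B for `a`, `a₀`. -/
theorem sym_line (hp2 : p ≠ 2) (hE : Loc E) {a₀ b₀ : A} (ha₀ : a₀ ∈ invOf E ρ)
    (hb₀ : b₀ ∈ invOf E ρ) (h₀ : K.sym a₀ b₀ ∉ B2 L E τ) {a b : A} (ha : a ∈ invOf E ρ)
    (hb : b ∈ invOf E ρ) : ∃ j : ℕ, K.sym a b - j • K.sym a₀ b₀ ∈ B2 L E τ := by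
  have hEt := H.triv hE
  by_cases hna : K.NotPow E a
  · have hna₀ : K.NotPow E a₀ := by
      by_contra hcon
      exact h₀ (K.sym_mem_B2_of_pow_left hEt ha₀ hb₀ hcon)
    obtain ⟨b', hb', hn, hn₀⟩ := K.exists_common H hE ha ha₀ hna hna₀
    -- antisymmetry in the quotient
    have anti : ∀ {x y : A}, x ∈ invOf E ρ → y ∈ invOf E ρ →
        (Submodule.Quotient.mk (K.sym x y) : _ ⧸ B2 L E τ)
          = - Submodule.Quotient.mk (K.sym y x) := by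
      intro x y hx hy
      have := Line_cl_zero.mp (K.sym_antisymm hp2 hEt hx hy)
      rw [Submodule.Quotient.mk_add] at this
      exact eq_neg_of_add_eq_zero_left this
    have hn₀' : K.sym b' a₀ ∉ B2 L E τ := by
      intro hm
      apply hn₀
      rw [Line_cl_zero, anti ha₀ hb', Line_cl_zero.mp hm, neg_zero]
    obtain ⟨j₁, hj₁⟩ := K.sym_line_right H hE ha hb' hn hb
    obtain ⟨j₂, hj₂⟩ := K.sym_line_right H hE hb' ha₀ hn₀' ha
    obtain ⟨j₃, hj₃⟩ := K.sym_line_right H hE ha₀ hb₀ h₀ hb'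
    rw [Line_cl_eq, Line_cl_nsmul] at hj₁ hj₂ hj₃
    refine ⟨j₁ * (j₂ * j₃), ?_⟩
    rw [Line_cl_eq, Line_cl_nsmul, hj₁, anti ha hb', hj₂, anti hb' ha₀, hj₃]
    simp only [smul_neg, neg_neg, mul_smul]
  · exact ⟨0, by rw [zero_smul, sub_zero]; exact K.sym_mem_B2_of_pow_left hEt ha hb hna⟩

/-- (S4) -/
theorem isSymb_line (hp2 : p ≠ 2) (hE : Loc E) {y₀ y : G → G → G → ZMod p} (hy₀ : K.IsSymb E y₀)
    (h₀ : y₀ ∉ B2 L E τ) (hy : K.IsSymb E y) : ∃ j : ℕ, y - j • y₀ ∈ B2 L E τ := by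
  obtain ⟨a₀, ha₀, b₀, hb₀, e₀⟩ := hy₀
  obtain ⟨a, ha, b, hb, e⟩ := hy
  rw [Line_cl_eq] at e₀ e
  have h₀' : K.sym a₀ b₀ ∉ B2 L E τ := by
    intro hm
    apply h₀
    rw [Line_cl_zero, e₀, Line_cl_zero.mp hm]
  obtain ⟨j, hj⟩ := K.sym_line H hp2 hE ha₀ hb₀ h₀' ha hb
  rw [Line_cl_eq, Line_cl_nsmul] at hj
  exact ⟨j, by rw [Line_cl_eq, Line_cl_nsmul, e, e₀, hj]⟩

/-- (O3) nondegeneracy of the symbol. -/
theorem exists_pow_of_sym_mem_B2 (hE : Loc E) {a : A} (ha : a ∈ invOf E ρ)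
    (h : ∀ b ∈ invOf E ρ, K.sym a b ∈ B2 L E τ) : ∃ c ∈ invOf E ρ, p • c = a := by
  by_contra hcon
  have hna : K.NotPow E a := fun c hc hca => hcon ⟨c, hc, hca⟩
  obtain ⟨b, hb, hnb⟩ := K.exists_sym_not_mem_B2_right H hE ha hna
  exact hnb (h b hb)

end Fermat.Agent.PT.KummerSetup
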