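/-
S55 block SYM, task Y4: (S5) corestriction of Kummer classes and the projection formula.
-/
import Fermat.Agent.PT.Symb.Basic

set_option autoImplicit false
set_option linter.unusedSectionVars false

namespace Fermat.Agent.PT

variable {G : Type*} [Group G] {L : LevelSystem G} {p : ℕ} [Fact p.Prime]
variable {A : Type*} [AddCommGroup A] {ρ : Representation ℤ G A}
variable {τ : Representation (ZMod p) G (ZMod p)} {ι : ZMod p →+ A}
variable {E E' : Subgroup G}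

/-- On the nose: `cores (f ∪ x) = f ∪ cores x` for an `E`-equivariant `f`
(`tw2 τ c (cupT f x) = cupT (tw1 τ c f) (tw1 triv c x)` and `tw1 τ c f = f` for `c ∈ E`). -/
theorem cor2_cupT [Finite (CosetsIn E E')] {f : G → G → ZMod p} (hf : f ∈ X1 L E τ)
    (x : G → G → ZMod p) :
    cor2 τ E E' (cupT f x) = cupT f (cor1 (trivZ p G) E E' x) := by
  letI := Fintype.ofFinite (CosetsIn E E')
  funext g₀ g₁ g₂
  have h2 : cor2 τ E E' (cupT f x) g₀ g₁ g₂ =
      ∑ q : CosetsIn E E', tw2 τ q.rep (cupT f x) g₀ g₁ g₂ := by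
    change (∑ q : CosetsIn E E', tw2 τ q.rep) (cupT f x) g₀ g₁ g₂ = _
    simp only [LinearMap.sum_apply, Finset.sum_apply]
  have h1 : cor1 (trivZ p G) E E' x g₁ g₂ =
      ∑ q : CosetsIn E E', tw1 (trivZ p G) q.rep x g₁ g₂ := by
    change (∑ q : CosetsIn E E', tw1 (trivZ p G) q.rep) x g₁ g₂ = _
    simp only [LinearMap.sum_apply, Finset.sum_apply]
  rw [h2]
  change _ = cor1 (trivZ p G) E E' x g₁ g₂ • f g₀ g₁
  rw [h1, Finset.sum_smul]
  refine Finset.sum_congr rfl fun q _ => ?_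
  have h3 := congrFun (congrFun (tw1_of_mem q.rep_mem hf) g₀) g₁
  rw [tw1_apply] at h3
  rw [tw2_apply, tw1_apply]
  change τ q.rep (x (q.rep⁻¹ * g₁) (q.rep⁻¹ * g₂) • f (q.rep⁻¹ * g₀) (q.rep⁻¹ * g₁)) = _
  rw [map_smul, h3]
  rfl

namespace KummerSetup

variable (K : KummerSetup L p ρ τ ι)

/-- `cores κ'(a₁) = κ(N a₁)`.  Apply `kum_char` to `e = cor0 ρ E E' (K.eK a₁) ∈ X0 L E ρ`,
`p • e = cor0 (const a₁) = const (relN a₁)`, `f = cor1 τ E E' (K.kum a₁)`,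
`ι (f g₀ g₁) = e g₁ - e g₀` (termwise: `ι (τ c t) = ρ c (ι t)`, `ι_kum`). -/
theorem cor1_kumY [Finite (CosetsIn E E')] {a₁ : A} (ha₁ : a₁ ∈ invOf E' ρ) :
    cor1 τ E E' (K.kum a₁) - K.kum (relN ρ E E' a₁) ∈ B1 L E τ := by
  letI := Fintype.ofFinite (CosetsIn E E')
  have h0 : ∀ g, cor0 ρ E E' (K.eK a₁) g = ∑ q : CosetsIn E E', tw0 ρ q.rep (K.eK a₁) g := by
    intro g
    change (∑ q : CosetsIn E E', tw0 ρ q.rep) (K.eK a₁) g = _
    simp only [LinearMap.sum_apply, Finset.sum_apply]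
  have h1 : ∀ g₀ g₁, cor1 τ E E' (K.kum a₁) g₀ g₁ =
      ∑ q : CosetsIn E E', tw1 τ q.rep (K.kum a₁) g₀ g₁ := by
    intro g₀ g₁
    change (∑ q : CosetsIn E E', tw1 τ q.rep) (K.kum a₁) g₀ g₁ = _
    simp only [LinearMap.sum_apply, Finset.sum_apply]
  refine K.kum_char (V := E) (e := cor0 ρ E E' (K.eK a₁)) (cor0_mem (K.eK_mem_X0 ha₁)) ?_ ?_
  · intro g
    have h2 : p • K.eK a₁ = fun _ => a₁ := by
      funext g
      exact K.p_smul_eK a₁ g
    have h3 : p • cor0 ρ E E' (K.eK a₁) = cor0 ρ E E' (fun _ => a₁) := by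
      rw [← map_nsmul, h2]
    have h4 := congrFun h3 g
    rw [cor0_const] at h4
    exact h4
  · intro g₀ g₁
    rw [h1, h0, h0, map_sum, ← Finset.sum_sub_distrib]
    refine Finset.sum_congr rfl fun q _ => ?_
    rw [tw1_apply, tw0_apply, tw0_apply, K.equiv, K.ι_kum, map_sub]

/-- (S5) projection formula `cores (sym a₁ b) = sym (N a₁) b`, `a₁ ∈ A^{E'}`, `b ∈ A^E`. -/
theorem cor2_sym [Finite (CosetsIn E E')] (hE : ∀ v ∈ E, ∀ t, τ v t = t) {a₁ b : A}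
    (ha₁ : a₁ ∈ invOf E' ρ) (hb : b ∈ invOf E ρ) :
    cor2 τ E E' (K.sym a₁ b) - K.sym (relN ρ E E' a₁) b ∈ B2 L E τ := by
  have hfb : K.kum b ∈ X1 L E τ := (K.kum_mem_Z1 hb).1
  have h1 : cor2 τ E E' (K.sym a₁ b) = K.theta b (cor1 τ E E' (K.kum a₁)) := by
    change cor2 τ E E' (cupT (K.kum b) (K.kum a₁)) = cupT (K.kum b) (cor1 τ E E' (K.kum a₁))
    rw [cor2_cupT hfb]
    congr 1
    apply cor1_congr
    intro v hv
    ext t
    simp [hE v hv]
  rw [h1]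
  have h2 := K.cor1_kumY (E := E) (E' := E') ha₁
  rw [B1_eq_triv hE] at h2
  exact K.theta_sub_mem_B2 hb h2

end KummerSetup

/-- corestriction preserves cocycles and coboundaries (membership form of `coresC`) -/
theorem cor2_mem_Z2 [Finite (CosetsIn E E')] {y : G → G → G → ZMod p} (hy : y ∈ Z2 L E' τ) :
    cor2 τ E E' y ∈ Z2 L E τ :=
  (coresC L τ E E').memZ2 hy

theorem cor2_mem_B2 [Finite (CosetsIn E E')] {y : G → G → G → ZMod p} (hy : y ∈ B2 L E' τ) :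
    cor2 τ E E' y ∈ B2 L E τ :=
  (coresC L τ E E').memB2 hy

end Fermat.Agent.PT
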