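/-
S55 block SYM, task Y5: (S6) the index-`p` step: corestriction `H²(E') → H²(E)`, `E' = ker κ(a)`, is
injective on symbol classes and surjective onto symbol classes.
-/
import Fermat.Agent.PT.Symb.Line
import Fermat.Agent.PT.Symb.Proj

set_option autoImplicit false
set_option linter.unusedSectionVars false

namespace Fermat.Agent.PT.KummerSetup

variable {G : Type*} [Group G] {L : LevelSystem G} {p : ℕ} [Fact p.Prime]
variable {A : Type*} [AddCommGroup A] {ρ : Representation ℤ G A}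
variable {τ : Representation (ZMod p) G (ZMod p)} {ι : ZMod p →+ A}
variable (K : KummerSetup L p ρ τ ι) {Loc : Subgroup G → Prop} (H : SymHyp L p ρ τ Loc)
variable {E : Subgroup G}

/-- In a `ZMod p`-submodule, `j • y ∈ S` forces `y ∈ S` or `j • z = 0` for all `z`. -/
lemma Step_nsmul_dichotomy {M : Type*} [AddCommGroup M] [Module (ZMod p) M]
    (S : Submodule (ZMod p) M) {y : M} {j : ℕ} (h : j • y ∈ S) (hy : y ∉ S) (z : M) :
    j • z = 0 := by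
  by_cases hj : (j : ZMod p) = 0
  · rw [← Nat.cast_smul_eq_nsmul (ZMod p) j z, hj, zero_smul]
  · exfalso
    apply hy
    have h1 : ((j : ZMod p)⁻¹) • (j • y) ∈ S := S.smul_mem _ h
    rwa [← Nat.cast_smul_eq_nsmul (ZMod p) j y, smul_smul, inv_mul_cancel₀ hj, one_smul] at h1

include K H

theorem loc_kerOf (hE : Loc E) {x : G → G → ZMod p} (hx : x ∈ Z1 L E (trivZ p G)) :
    Loc (kerOf E x) :=
  H.sub hE (kerOf_le E x) (exists_level_le_kerOf hx)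

/-- The key symbol: `α = K.s a ∈ A^{E'}`, `N α = a`, `b₀ ∈ A^E` with `sym a b₀ ≠ 0`:
`cores (sym α b₀) ≡ sym a b₀` (`cor2_sym`, `relN_kerOf`, `normOf_s`). -/
theorem exists_key (hp2 : p ≠ 2) (hE : Loc E) {a : A} (ha : a ∈ invOf E ρ) (h : K.NotPow E a)
    [Finite (CosetsIn E (kerOf E (K.kum a)))] :
    ∃ y₁ : G → G → G → ZMod p, ∃ y₀ : G → G → G → ZMod p,
      K.IsSymb (kerOf E (K.kum a)) y₁ ∧ y₁ ∈ Z2 L (kerOf E (K.kum a)) τ ∧
      K.IsSymb E y₀ ∧ y₀ ∉ B2 L E τ ∧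
      cor2 τ E (kerOf E (K.kum a)) y₁ - y₀ ∈ B2 L E τ := by
  have hτ : ∀ v ∈ E, ∀ t, τ v t = t := H.triv hE
  have hle : kerOf E (K.kum a) ≤ E := kerOf_le E (K.kum a)
  have hτ' : ∀ v ∈ kerOf E (K.kum a), ∀ t, τ v t = t := fun v hv t => hτ v (hle hv) t
  obtain ⟨σ, hσ, hσ1⟩ := K.exists_sigma_kum hτ ha h
  obtain ⟨b₀, hb₀, hnb⟩ := K.exists_sym_not_mem_B2_right H hE ha h
  have hα : K.s a ∈ invOf (kerOf E (K.kum a)) ρ := K.s_mem_invOf_ker ha hτ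
  have hb₀' : b₀ ∈ invOf (kerOf E (K.kum a)) ρ := fun v hv => hb₀ v (hle hv)
  have hx : K.kum a ∈ Z1 L E (trivZ p G) := K.kum_mem_Z1_triv hτ ha
  have hN : relN ρ E (kerOf E (K.kum a)) (K.s a) = a := by
    rw [relN_kerOf hx hσ hσ1 hα, K.normOf_s hp2 hτ ha hσ hσ1]
  refine ⟨K.sym (K.s a) b₀, K.sym a b₀, ⟨K.s a, hα, b₀, hb₀', ?_⟩, K.sym_mem_Z2 hτ' hα hb₀',
    ⟨a, ha, b₀, hb₀, ?_⟩, hnb, ?_⟩
  · rw [sub_self]; exact Submodule.zero_mem _
  · rw [sub_self]; exact Submodule.zero_mem _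
  · have h1 := K.cor2_sym (E := E) (E' := kerOf E (K.kum a)) hτ hα hb₀
    rwa [hN] at h1

/-- (S6) injectivity on symbol classes, for `x = κ(a)`. -/
theorem Step_inj_kum (hp2 : p ≠ 2) (hE : Loc E) {a : A} (ha : a ∈ invOf E ρ)
    (h : K.NotPow E a) [Finite (CosetsIn E (kerOf E (K.kum a)))]
    {y' : G → G → G → ZMod p} (hy' : K.IsSymb (kerOf E (K.kum a)) y')
    (hc : cor2 τ E (kerOf E (K.kum a)) y' ∈ B2 L E τ) : y' ∈ B2 L (kerOf E (K.kum a)) τ := by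
  have hτ : ∀ v ∈ E, ∀ t, τ v t = t := H.triv hE
  have hx : K.kum a ∈ Z1 L E (trivZ p G) := K.kum_mem_Z1_triv hτ ha
  obtain ⟨y₁, y₀, hs1, -, -, hn0, hc10⟩ := K.exists_key H hp2 hE ha h
  have hn1 : y₁ ∉ B2 L (kerOf E (K.kum a)) τ := by
    intro hb
    apply hn0
    have h1 : cor2 τ E (kerOf E (K.kum a)) y₁ ∈ B2 L E τ := cor2_mem_B2 hb
    have h2 := Submodule.sub_mem _ h1 hc10
    rwa [sub_sub_cancel] at h2
  obtain ⟨j, hj⟩ := K.isSymb_line H hp2 (K.loc_kerOf H hE hx) hs1 hn1 hy'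
  have h1 : cor2 τ E (kerOf E (K.kum a)) (y' - j • y₁) ∈ B2 L E τ := cor2_mem_B2 hj
  rw [map_sub, map_nsmul] at h1
  -- `j • y₀ ∈ B2`
  have h2 : j • y₀ ∈ B2 L E τ := by
    have h3 : j • (cor2 τ E (kerOf E (K.kum a)) y₁ - y₀) ∈ B2 L E τ :=
      (B2 L E τ).toAddSubmonoid.nsmul_mem hc10 j
    have h4 := Submodule.sub_mem _ (Submodule.sub_mem _ hc h1) h3
    have h5 : cor2 τ E (kerOf E (K.kum a)) y' -
        (cor2 τ E (kerOf E (K.kum a)) y' - j • cor2 τ E (kerOf E (K.kum a)) y₁) -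
        j • (cor2 τ E (kerOf E (K.kum a)) y₁ - y₀) = j • y₀ := by
      rw [smul_sub]; abel
    rwa [h5] at h4
  have h6 : j • y₁ = 0 := Step_nsmul_dichotomy (B2 L E τ) h2 hn0 y₁
  rwa [h6, sub_zero] at hj

/-- surjectivity onto symbol classes, for `x = κ(a)`. -/
theorem Step_surj_kum (hp2 : p ≠ 2) (hE : Loc E) {a : A} (ha : a ∈ invOf E ρ)
    (h : K.NotPow E a) [Finite (CosetsIn E (kerOf E (K.kum a)))]
    {y : G → G → G → ZMod p} (hy : K.IsSymb E y) :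
    ∃ y' ∈ Z2 L (kerOf E (K.kum a)) τ, cor2 τ E (kerOf E (K.kum a)) y' - y ∈ B2 L E τ := by
  obtain ⟨y₁, y₀, -, hz1, hs0, hn0, hc10⟩ := K.exists_key H hp2 hE ha h
  obtain ⟨j, hj⟩ := K.isSymb_line H hp2 hE hs0 hn0 hy
  refine ⟨j • y₁, (Z2 L (kerOf E (K.kum a)) τ).toAddSubmonoid.nsmul_mem hz1 j, ?_⟩
  have h3 : j • (cor2 τ E (kerOf E (K.kum a)) y₁ - y₀) ∈ B2 L E τ :=
    (B2 L E τ).toAddSubmonoid.nsmul_mem hc10 j
  have h4 := Submodule.sub_mem _ h3 hj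
  have h5 : j • (cor2 τ E (kerOf E (K.kum a)) y₁ - y₀) - (y - j • y₀) =
      cor2 τ E (kerOf E (K.kum a)) (j • y₁) - y := by
    rw [map_nsmul, smul_sub]; abel
  rwa [h5] at h4

/-- (S6) injectivity on symbol classes.  `y' ≡ j • y₁` on `E'` (`isSymb_line`, `y₁ ∉ B2` because its
corestriction is not), `cores y' ≡ j • y₀`, so `p ∣ j` and `j • y₁ = 0`. -/
theorem mem_B2_of_cor2_mem_B2 (hp2 : p ≠ 2) (hE : Loc E) {x : G → G → ZMod p}
    (hx : x ∈ Z1 L E (trivZ p G)) (hne : kerOf E x ≠ E) [Finite (CosetsIn E (kerOf E x))]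
    {y' : G → G → G → ZMod p} (hy' : K.IsSymb (kerOf E x) y')
    (hc : cor2 τ E (kerOf E x) y' ∈ B2 L E τ) : y' ∈ B2 L (kerOf E x) τ := by
  obtain ⟨a, ha, -, hker, hnp⟩ := K.exists_kum_triv (H.triv hE) hx
  have hnp' := hnp hne
  clear hnp hne hx
  generalize kerOf E x = E' at *
  subst hker
  exact K.Step_inj_kum H hp2 hE ha hnp' hy' hc

/-- surjectivity onto symbol classes -/
theorem exists_cor2_of_isSymb (hp2 : p ≠ 2) (hE : Loc E) {x : G → G → ZMod p}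
    (hx : x ∈ Z1 L E (trivZ p G)) (hne : kerOf E x ≠ E) [Finite (CosetsIn E (kerOf E x))]
    {y : G → G → G → ZMod p} (hy : K.IsSymb E y) :
    ∃ y' ∈ Z2 L (kerOf E x) τ, cor2 τ E (kerOf E x) y' - y ∈ B2 L E τ := by
  obtain ⟨a, ha, -, hker, hnp⟩ := K.exists_kum_triv (H.triv hE) hx
  have hnp' := hnp hne
  clear hnp hne hx
  generalize kerOf E x = E' at *
  subst hker
  exact K.Step_surj_kum H hp2 hE ha hnp' hy

end Fermat.Agent.PT.KummerSetup
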