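/-
S55 block SYM, tasks Y6, Y7: (S7) `H²(E, μ_p)` consists of symbol classes; it has order `p`;
corestriction is surjective.
-/
import Fermat.Agent.PT.Symb.Step

set_option autoImplicit false
set_option linter.unusedSectionVars false

namespace Fermat.Agent.PT.KummerSetup

variable {G : Type*} [Group G] {L : LevelSystem G} {p : ℕ} [Fact p.Prime]
variable {A : Type*} [AddCommGroup A] {ρ : Representation ℤ G A}
variable {τ : Representation (ZMod p) G (ZMod p)} {ι : ZMod p →+ A}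
variable (K : KummerSetup L p ρ τ ι) {Loc : Subgroup G → Prop} (H : SymHyp L p ρ τ Loc)
variable {E : Subgroup G}
include K H

/-- One step up the tower: `P' = ker x`, `y ∈ Z²(P)`, `y|P'` a symbol class ⇒ `y` a symbol class.
`cores (y|P') = p • y = 0` (`Cores_cor2_of_mem`, `relIndex_kerOf`) ⇒ `y ∈ B2(P')`
(`mem_B2_of_cor2_mem_B2`) ⇒ `y ≡ theta b x` (`exists_theta_of_mem_B2_ker`) `≡ theta b (kum a) = sym a b`
(`exists_kum_triv`, `theta_sub_mem_B2`). -/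
theorem isSymb_step (hp2 : p ≠ 2) (hE : Loc E) {x : G → G → ZMod p}
    (hx : x ∈ Z1 L E (trivZ p G)) (hne : kerOf E x ≠ E) {y : G → G → G → ZMod p}
    (hy : y ∈ Z2 L E τ) (hy' : K.IsSymb (kerOf E x) y) : K.IsSymb E y := by
  haveI := finite_cosetsIn_kerOf hx
  have hc : cor2 τ E (kerOf E x) y ∈ B2 L E τ := by
    rw [Cores_cor2_of_mem L τ (kerOf_le E x) hy.1, relIndex_kerOf hx hne]
    have : p • y = 0 := by
      funext g₀ g₁ g₂
      simp
    rw [this]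
    exact zero_mem _
  have h1 : y ∈ B2 L (kerOf E x) τ := K.mem_B2_of_cor2_mem_B2 H hp2 hE hx hne hy' hc
  obtain ⟨b, hb, hyb⟩ := K.exists_theta_of_mem_B2_ker hx hne hy h1
  obtain ⟨a, ha, hxa, -, -⟩ := K.exists_kum_triv (H.triv hE) hx
  have h2 : K.theta b x - K.theta b (K.kum a) ∈ B2 L E τ := K.theta_sub_mem_B2 (E := E) hb hxa
  refine ⟨a, ha, b, hb, ?_⟩
  have e : y - K.sym a b = (y - K.theta b x) + (K.theta b x - K.theta b (K.kum a)) := by
    unfold sym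
    abel
  rw [e]
  exact add_mem hyb h2

/-- The prime-to-`p` step: `P ≤ E` of index prime to `p`, `y ∈ Z²(E)`, `y|P` a symbol class ⇒ `y` is a
symbol class.  Take `y₀ = sym a₀ b₀ ∉ B2(E)`; `y₀ ∉ B2(P)` (`mem_B2_of_relIndex_isUnit`);
`y ≡ j • y₀` on `P` (`isSymb_line`), hence on `E`. -/
theorem isSymb_of_coprime (hp2 : p ≠ 2) (hE : Loc E) {P : Subgroup G} (hP : Loc P) (hle : P ≤ E)
    (hfin : P.relIndex E ≠ 0) (hidx : ¬ p ∣ P.relIndex E) {y : G → G → G → ZMod p}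
    (hy : y ∈ Z2 L E τ) (hy' : K.IsSymb P y) : K.IsSymb E y := by
  obtain ⟨a₀, ha₀, b₀, hb₀, h₀⟩ := K.exists_sym_not_mem_B2 H hE
  have hu : IsUnit ((P.relIndex E : ℕ) : ZMod p) := by
    rw [isUnit_iff_ne_zero, Ne, ZMod.natCast_eq_zero_iff]
    exact hidx
  have hy₀Z : K.sym a₀ b₀ ∈ Z2 L E τ := K.sym_mem_Z2 (H.triv hE) ha₀ hb₀
  have hy₀S : K.IsSymb E (K.sym a₀ b₀) := ⟨a₀, ha₀, b₀, hb₀, by rw [sub_self]; exact zero_mem _⟩
  have h₀P : K.sym a₀ b₀ ∉ B2 L P τ := fun h =>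
    h₀ (mem_B2_of_relIndex_isUnit hle hfin hu hy₀Z.1 h)
  obtain ⟨j, hj⟩ := K.isSymb_line H hp2 hP (IsSymb.mono K hle hy₀S) h₀P hy'
  have hjE : y - j • K.sym a₀ b₀ ∈ B2 L E τ :=
    mem_B2_of_relIndex_isUnit hle hfin hu
      ((X2 L E τ).sub_mem hy.1 ((X2 L E τ).smul_of_tower_mem j hy₀Z.1)) hj
  exact IsSymb.congr K (IsSymb.nsmul K (H.triv hE) hy₀S j) hjE

/-- (S7) MAIN.  `die2`, `exists_tower`, downward induction with `isSymb_step`, then
`isSymb_of_coprime`.  All `W i` are `Loc` by `H.sub`. -/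
theorem isSymb_of_mem_Z2 (hp2 : p ≠ 2) (hE : Loc E) {y : G → G → G → ZMod p}
    (hy : y ∈ Z2 L E τ) : K.IsSymb E y := by
  obtain ⟨U, hU, hyU⟩ := die2 hy
  obtain ⟨n, W, x, h0, h1, h2, h3, -, h5, h6⟩ := exists_tower (p := p) E hU
  have hLoc : ∀ i ≤ n, Loc (W i) := fun i hi =>
    H.sub hE ((h5 i hi).2.trans h0) ⟨U, hU, (h5 i hi).1⟩
  have hind : ∀ d, d ≤ n → K.IsSymb (W (n - d)) y := by
    intro d
    induction d with
    | zero =>
      intro _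
      rw [Nat.sub_zero]
      refine K.isSymb_of_mem_B2 ?_ (H.triv (hLoc n le_rfl))
      rw [h3]
      exact hyU
    | succ d ih =>
      intro hd
      have hi : n - (d + 1) < n := by omega
      obtain ⟨hx1, hx2, hx3⟩ := h6 _ hi
      refine K.isSymb_step H hp2 (hLoc _ hi.le) hx1 hx3
        (Z2_le_of_le ((h5 _ hi.le).2.trans h0) hy) ?_
      rw [hx2]
      have e : n - (d + 1) + 1 = n - d := by omega
      rw [e]
      exact ih (by omega)
  have hW0 : K.IsSymb (W 0) y := by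
    have := hind n le_rfl
    rwa [Nat.sub_self] at this
  exact K.isSymb_of_coprime H hp2 hE (hLoc 0 (Nat.zero_le n)) h0 h1 h2 hy hW0

/-- `H²(E, μ_p)` is a line. -/
theorem exists_nsmul_sub_mem_B2 (hp2 : p ≠ 2) (hE : Loc E) {y₀ y : G → G → G → ZMod p}
    (hy₀ : y₀ ∈ Z2 L E τ) (h₀ : y₀ ∉ B2 L E τ) (hy : y ∈ Z2 L E τ) :
    ∃ j : ℕ, y - j • y₀ ∈ B2 L E τ :=
  K.isSymb_line H hp2 hE (K.isSymb_of_mem_Z2 H hp2 hE hy₀) h₀ (K.isSymb_of_mem_Z2 H hp2 hE hy)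

theorem finrank_H2 (hp2 : p ≠ 2) (hE : Loc E) : Module.finrank (ZMod p) (H2 L E τ) = 1 := by
  obtain ⟨a₀, ha₀, b₀, hb₀, h₀⟩ := K.exists_sym_not_mem_B2 H hE
  have hy₀Z : K.sym a₀ b₀ ∈ Z2 L E τ := K.sym_mem_Z2 (H.triv hE) ha₀ hb₀
  have hv : H2.mk L E τ ⟨K.sym a₀ b₀, hy₀Z⟩ ≠ 0 := by
    rw [Ne, H2.mk_eq_zero_iff]
    exact h₀
  rw [finrank_eq_one_iff_of_nonzero' _ hv]
  intro w
  obtain ⟨⟨y, hy⟩, rfl⟩ := H2.mk_surjective L E τ w
  obtain ⟨j, hj⟩ := K.exists_nsmul_sub_mem_B2 H hp2 hE hy₀Z h₀ hy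
  refine ⟨(j : ZMod p), ?_⟩
  rw [← map_smul, eq_comm, ← sub_eq_zero, ← map_sub, H2.mk_eq_zero_iff]
  have e : (((⟨y, hy⟩ : Z2 L E τ) - (j : ZMod p) • (⟨K.sym a₀ b₀, hy₀Z⟩ : Z2 L E τ) : Z2 L E τ) :
      G → G → G → ZMod p) = y - j • K.sym a₀ b₀ := by
    rw [Nat.cast_smul_eq_nsmul]
    rfl
  rw [e]
  exact hj

/-- (O1) `|H²(E, μ_p)| = p`. -/
theorem card_H2 (hp2 : p ≠ 2) (hE : Loc E) : Nat.card (H2 L E τ) = p := by
  have h1 := K.finrank_H2 H hp2 hE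
  have : Module.Finite (ZMod p) (H2 L E τ) :=
    Module.finite_of_finrank_pos (by rw [h1]; exact one_pos)
  rw [Module.natCard_eq_pow_finrank (K := ZMod p), h1, pow_one, Nat.card_zmod]

omit K H in
/-- surjectivity of the corestriction, on the level of cocycles (auxiliary notion of Y7) -/
def Main_CorSurj (L : LevelSystem G) (τ : Representation (ZMod p) G (ZMod p))
    (E E' : Subgroup G) : Prop :=
  ∀ _h : Finite (CosetsIn E E'), ∀ y ∈ Z2 L E τ,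
    ∃ y' ∈ Z2 L E' τ, cor2 τ E E' y' - y ∈ B2 L E τ

omit K H in
theorem Main_CorSurj_refl (E : Subgroup G) : Main_CorSurj L τ E E := by
  intro _ y hy
  refine ⟨y, hy, ?_⟩
  rw [Cores_cor2_of_mem L τ le_rfl hy.1, Subgroup.relIndex_self, one_smul, sub_self]
  exact (B2 L E τ).zero_mem

omit K H in
theorem Main_CorSurj_trans {E E' E'' : Subgroup G} (h : E'' ≤ E') (h' : E' ≤ E)
    [Finite (CosetsIn E E')] [Finite (CosetsIn E' E'')]
    (h1 : Main_CorSurj L τ E E') (h2 : Main_CorSurj L τ E' E'') : Main_CorSurj L τ E E'' := by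
  intro _ y hy
  obtain ⟨y', hy', hc'⟩ := h1 inferInstance y hy
  obtain ⟨y'', hy'', hc''⟩ := h2 inferInstance y' hy'
  refine ⟨y'', hy'', ?_⟩
  have e1 := (coresC L τ E E').memB2 hc''
  have e2 : (coresC L τ E E').T2 (cor2 τ E' E'' y'' - y')
      = cor2 τ E E'' y'' - cor2 τ E E' y' := by
    show cor2 τ E E' (cor2 τ E' E'' y'' - y') = _
    rw [map_sub, cor_cor2 L τ h h' hy''.1]
  rw [e2] at e1
  have e3 := (B2 L E τ).add_mem e1 hc'
  rwa [sub_add_sub_cancel] at e3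

omit K H in
/-- the prime-to-`p` step -/
theorem Main_CorSurj_of_coprime {E P : Subgroup G} (hle : P ≤ E)
    (hidx : ¬ p ∣ P.relIndex E) : Main_CorSurj L τ E P := by
  intro _ y hy
  have hne : ((P.relIndex E : ℕ) : ZMod p) ≠ 0 := by
    rw [Ne, ZMod.natCast_eq_zero_iff]
    exact hidx
  refine ⟨((P.relIndex E : ℕ) : ZMod p)⁻¹ • y,
    (Z2 L P τ).smul_mem _ (Z2_le_of_le hle hy), ?_⟩
  rw [map_smul, Cores_cor2_of_mem L τ hle hy.1, ← Nat.cast_smul_eq_nsmul (ZMod p), smul_smul,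
    inv_mul_cancel₀ hne, one_smul, sub_self]
  exact (B2 L E τ).zero_mem

/-- the index-`p` step -/
theorem Main_CorSurj_step (hp2 : p ≠ 2) (hE : Loc E) {x : G → G → ZMod p}
    (hx : x ∈ Z1 L E (trivZ p G)) (hne : kerOf E x ≠ E) : Main_CorSurj L τ E (kerOf E x) := by
  intro _ y hy
  exact K.exists_cor2_of_isSymb H hp2 hE hx hne (K.isSymb_of_mem_Z2 H hp2 hE hy)

/-- Corestriction from `E ⊓ U`: compose the steps of the tower (`exists_cor2_of_isSymb`,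
`Cores_cor2_of_mem` for the prime-to-`p` step, transitivity `cor_cor2`). -/
theorem exists_cor2_inf (hp2 : p ≠ 2) (hE : Loc E) {U : Subgroup G} (hU : U ∈ L)
    [Finite (CosetsIn E (E ⊓ U))] {y : G → G → G → ZMod p} (hy : y ∈ Z2 L E τ) :
    ∃ y' ∈ Z2 L (E ⊓ U) τ, cor2 τ E (E ⊓ U) y' - y ∈ B2 L E τ := by
  obtain ⟨n, W, x, h0, h1, h2, h3, -, h5, h6⟩ := exists_tower (p := p) E hU
  have hfin : ∀ i ≤ n, ∀ j ≤ n, Finite (CosetsIn (W i) (W j)) := fun i hi j hj =>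
    finite_cosetsIn_of_open ⟨U, hU,
      (inf_le_inf_right U ((h5 i hi).2.trans h0)).trans (h5 j hj).1⟩
  have hLoc : ∀ i ≤ n, Loc (W i) := fun i hi =>
    H.sub hE ((h5 i hi).2.trans h0) ⟨U, hU, (h5 i hi).1⟩
  have hind : ∀ d, d ≤ n → Main_CorSurj L τ (W 0) (W d) := by
    intro d
    induction d with
    | zero => intro _; exact Main_CorSurj_refl _
    | succ d ih =>
      intro hd
      obtain ⟨hx1, hx2, hx3⟩ := h6 d (by omega)
      have hstep := K.Main_CorSurj_step H hp2 (hLoc d (by omega)) hx1 hx3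
      rw [hx2] at hstep
      have := hfin 0 (Nat.zero_le n) d (by omega)
      have := hfin d (by omega) (d + 1) hd
      refine Main_CorSurj_trans ?_ (h5 d (by omega)).2 (ih (by omega)) hstep
      rw [← hx2]
      exact kerOf_le _ _
  have := Coprime_finite_cosetsIn h1
  have := hfin 0 (Nat.zero_le n) n le_rfl
  have hall := Main_CorSurj_trans (h5 n le_rfl).2 h0
    (Main_CorSurj_of_coprime (L := L) (τ := τ) h0 h2) (hind n le_rfl)
  rw [h3] at hall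
  exact hall inferInstance y hy

/-- (O2) corestriction `H²(E') → H²(E)` is surjective for `E' ≤ E` relatively open
(`cor_{E ⊓ U → E} = cor_{E' → E} ∘ cor_{E ⊓ U → E'}`). -/
theorem exists_cor2 (hp2 : p ≠ 2) (hE : Loc E) {E' : Subgroup G} (hle : E' ≤ E)
    (hop : ∃ U ∈ L, E ⊓ U ≤ E') [Finite (CosetsIn E E')] {y : G → G → G → ZMod p}
    (hy : y ∈ Z2 L E τ) : ∃ y' ∈ Z2 L E' τ, cor2 τ E E' y' - y ∈ B2 L E τ := by
  obtain ⟨U, hU, hUE⟩ := hop
  have : Finite (CosetsIn E (E ⊓ U)) := finite_cosetsIn_of_open ⟨U, hU, le_rfl⟩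
  have : Finite (CosetsIn E' (E ⊓ U)) :=
    finite_cosetsIn_of_open ⟨U, hU, inf_le_inf_right U hle⟩
  obtain ⟨y'', hy'', hc⟩ := K.exists_cor2_inf H hp2 hE hU hy
  refine ⟨cor2 τ E' (E ⊓ U) y'', (coresC L τ E' (E ⊓ U)).memZ2 hy'', ?_⟩
  rwa [cor_cor2 L τ hUE hle hy''.1]

theorem coresC_H2_surjective (hp2 : p ≠ 2) (hE : Loc E) {E' : Subgroup G} (hle : E' ≤ E)
    (hop : ∃ U ∈ L, E ⊓ U ≤ E') [Finite (CosetsIn E E')] :
    Function.Surjective (coresC L τ E E').H2 := by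
  intro c
  obtain ⟨z, rfl⟩ := H2.mk_surjective L E τ c
  obtain ⟨y', hy', hc⟩ := K.exists_cor2 H hp2 hE hle hop z.2
  refine ⟨H2.mk L E' τ ⟨y', hy'⟩, ?_⟩
  rw [CMap.H2_mk, ← sub_eq_zero, ← map_sub, H2.mk_eq_zero_iff]
  exact hc

theorem coresC_H2_bijective (hp2 : p ≠ 2) (hE : Loc E) {E' : Subgroup G} (hle : E' ≤ E)
    (hop : ∃ U ∈ L, E ⊓ U ≤ E') [Finite (CosetsIn E E')] :
    Function.Bijective (coresC L τ E E').H2 := by
  have hp : p ≠ 0 := (Fact.out : p.Prime).ne_zero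
  have c1 := K.card_H2 H hp2 hE
  have c2 := K.card_H2 H hp2 (H.sub hE hle hop)
  have : Finite (H2 L E' τ) := Nat.finite_of_card_ne_zero (by rw [c2]; exact hp)
  have : Finite (H2 L E τ) := Nat.finite_of_card_ne_zero (by rw [c1]; exact hp)
  exact (Nat.bijective_iff_surjective_and_card _).mpr
    ⟨K.coresC_H2_surjective H hp2 hE hle hop, by rw [c1, c2]⟩

end Fermat.Agent.PT.KummerSetup
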