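/-
S55 block SYM, task Y8: the concrete instance over `GQ` and the contracts delivered to the other blocks.
`LocAt p 𝒜 E` : `E` is (the Galois group of) a finite extension of `Q_𝒜^h(μ_p)`.
-/
import Fermat.Agent.PT.Symb.Main
import Fermat.Agent.PT.B.Galois
import Fermat.Agent.PT.Global.Interface

set_option autoImplicit false
set_option linter.unusedSectionVars false

open ExtCitation

namespace Fermat.Agent.PT

variable (p : ℕ) [Fact p.Prime]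

/-- local groups with `μ_p` at the place `𝒜` -/
def LocAt (𝒜 : Place) (E : Subgroup GQ) : Prop :=
  E ≤ Dec 𝒜 ⊓ G1 p ∧ ∃ U ∈ Lall, Dec 𝒜 ⊓ U ≤ E

/-- (NI) CONTRACT with block HENS (helper95): norm index `= p`. -/
def LocalNormIndexStatement : Prop :=
  ∀ 𝒜 : Place, 𝒜.IsFin → ∀ E : Subgroup GQ, LocAt p 𝒜 E →
    ∀ x ∈ Z1 Lall E (trivZ p GQ), ∀ σ ∈ E, x 1 σ = 1 →
      ∃ b₀ ∈ invOf E multRep, (∀ c ∈ invOf (kerOf E x) multRep, normOf multRep p σ c ≠ b₀) ∧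
        ∀ b ∈ invOf E multRep, ∃ j : ℕ, ∃ c ∈ invOf (kerOf E x) multRep,
          b = j • b₀ + normOf multRep p σ c

/-- (NP) CONTRACT with block HENS (helper95): not every element is a `p`-th power. -/
def LocalNotPowStatement : Prop :=
  ∀ 𝒜 : Place, 𝒜.IsFin → ∀ E : Subgroup GQ, LocAt p 𝒜 E →
    ∃ b ∈ invOf E multRep, ∀ c ∈ invOf E multRep, p • c ≠ b

variable {p}

theorem LocAt.triv {𝒜 : Place} {E : Subgroup GQ} (h : LocAt p 𝒜 E) :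
    ∀ v ∈ E, ∀ t, cycRep p v t = t := by
  intro v hv t
  have hv1 : cycloChar p v = 1 := (h.1 hv).2
  rw [cycRep_apply, hv1, Units.val_one, one_mul]

theorem LocAt.sub {𝒜 : Place} {E E' : Subgroup GQ} (h : LocAt p 𝒜 E) (hle : E' ≤ E)
    (hop : ∃ U ∈ Lall, E ⊓ U ≤ E') : LocAt p 𝒜 E' := by
  obtain ⟨h1, U, hU, h2⟩ := h
  obtain ⟨U', hU', h3⟩ := hop
  obtain ⟨W, hW, w1, w2⟩ := Lall.directed' U hU U' hU'
  refine ⟨hle.trans h1, W, hW, fun g hg => h3 ⟨h2 ⟨hg.1, w1 hg.2⟩, w2 hg.2⟩⟩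

/-- `V ⊓ Dec 𝒜` is a local group with `μ_p` for `V ≤ G1 p` open. -/
theorem locAt_inf_Dec {V : Subgroup GQ} (hV : Lall.IsOpen V) (hV1 : V ≤ G1 p) (𝒜 : Place) :
    LocAt p 𝒜 (V ⊓ Dec 𝒜) := by
  obtain ⟨U, hU, hUV⟩ := hV
  exact ⟨fun g hg => ⟨hg.2, hV1 hg.1⟩, U, hU, fun g hg => ⟨hUV hg.2, hg.1⟩⟩

theorem symHyp_locAt (hNI : LocalNormIndexStatement p) (hNP : LocalNotPowStatement p) {𝒜 : Place}
    (h𝒜 : 𝒜.IsFin) : SymHyp Lall p multRep (cycRep p) (LocAt p 𝒜) where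
  triv h := h.triv
  sub h hle hop := h.sub hle hop
  ni h := hNI 𝒜 h𝒜 _ h
  np h := hNP 𝒜 h𝒜 _ h

/-! ### outputs -/

/-- `LocalCard` for `V ≤ G1 p`. -/
theorem localCard_of_le_G1 (hp2 : p ≠ 2) (hNI : LocalNormIndexStatement p)
    (hNP : LocalNotPowStatement p) {V : Subgroup GQ} (hV : Lall.IsOpen V) (hV1 : V ≤ G1 p)
    {𝒜 : Place} (h𝒜 : 𝒜.IsFin) : Nat.card (H2 Lall (V ⊓ Dec 𝒜) (cycRep p)) = p :=
  (kummerQbar p).card_H2 (symHyp_locAt hNI hNP h𝒜) hp2 (locAt_inf_Dec hV hV1 𝒜)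

/-- `LocalCoresOnto` (bijective) inside `G1 p`. -/
theorem localCores_bijective (hp2 : p ≠ 2) (hNI : LocalNormIndexStatement p)
    (hNP : LocalNotPowStatement p) {𝒜 : Place} (h𝒜 : 𝒜.IsFin) {E E' : Subgroup GQ}
    (hE : LocAt p 𝒜 E) (hle : E' ≤ E) (hop : ∃ U ∈ Lall, E ⊓ U ≤ E') [Finite (CosetsIn E E')] :
    Function.Bijective (coresC Lall (cycRep p) E E').H2 :=
  (kummerQbar p).coresC_H2_bijective (symHyp_locAt hNI hNP h𝒜) hp2 hE hle hop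

/-- `LocalPairing` in the form of `PT/Koch/Defs.lean` (`Koch.LocalPairingStatement p`).
(`x ≡ kum a` by `exists_kum_triv`; `cupT (kum b) x ≡ sym a b`; `exists_pow_of_sym_mem_B2`;
`kum_mem_B1_iff`.) -/
theorem localPairing (hNI : LocalNormIndexStatement p) (hNP : LocalNotPowStatement p) :
    ∀ V : Subgroup GQ, Lall.IsOpen V → V ≤ G1 p → ∀ 𝒜 : Place, 𝒜.IsFin →
      ∀ x ∈ Z1 Lall (V ⊓ Dec 𝒜) (trivZ p GQ),
        (∀ f ∈ Z1 Lall (V ⊓ Dec 𝒜) (cycRep p), cupT f x ∈ B2 Lall (V ⊓ Dec 𝒜) (cycRep p)) →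
        x ∈ B1 Lall (V ⊓ Dec 𝒜) (trivZ p GQ) := by
  intro V hV hV1 𝒜 h𝒜 x hx hcup
  have hE : LocAt p 𝒜 (V ⊓ Dec 𝒜) := locAt_inf_Dec hV hV1 𝒜
  have H := symHyp_locAt hNI hNP h𝒜
  obtain ⟨a, ha, hxa, -, hnp⟩ := (kummerQbar p).exists_kum_triv hE.triv hx
  rw [mem_B1_triv_iff hx]
  by_contra hne
  have hsym : ∀ b ∈ invOf (V ⊓ Dec 𝒜) multRep,
      (kummerQbar p).sym a b ∈ B2 Lall (V ⊓ Dec 𝒜) (cycRep p) := by
    intro b hb
    have h1 : (kummerQbar p).theta b x ∈ B2 Lall (V ⊓ Dec 𝒜) (cycRep p) :=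
      hcup _ ((kummerQbar p).kum_mem_Z1 hb)
    have h2 := (kummerQbar p).theta_sub_mem_B2 hb hxa
    have h3 := Submodule.sub_mem _ h1 h2
    rwa [sub_sub_cancel] at h3
  obtain ⟨c, hc, hca⟩ := (kummerQbar p).exists_pow_of_sym_mem_B2 H hE ha hsym
  exact hnp hne c hc hca

end Fermat.Agent.PT
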